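/-
S56, wall W2, leaf R (helper1), part 3: the counting lemma behind the Greenberg–Wiles inequality
(pure linear algebra over `𝔽_p`).

`H`, `H'` finite (global classes of `M` and of `N`), `P i`, `P' i` the local groups, `r`, `r'` the
localisations, `B i` the local pairings, `hrec` the reciprocity law, `𝓛 i` finite local conditions.
If no nonzero class of `H'` is orthogonal to all of `∏ 𝓛 i`, then
`#Sel · #H' ≤ #Ш · ∏ #𝓛 i`, `Sel = {a | r i a ∈ 𝓛 i}`, `Ш = {a | r i a = 0}`.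
-/
import Mathlib

set_option autoImplicit false

open Module

namespace Fermat.Agent.S56

section Count

variable {p : ℕ} [Fact p.Prime] {ι : Type}
  {H H' : Type} [AddCommGroup H] [Module (ZMod p) H] [AddCommGroup H'] [Module (ZMod p) H']
  {P P' : ι → Type} [∀ i, AddCommGroup (P i)] [∀ i, Module (ZMod p) (P i)]
  [∀ i, AddCommGroup (P' i)] [∀ i, Module (ZMod p) (P' i)]
  (r : ∀ i, H →ₗ[ZMod p] P i) (r' : ∀ i, H' →ₗ[ZMod p] P' i)
  (B : ∀ i, P i →ₗ[ZMod p] Dual (ZMod p) (P' i))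
  (𝓛 : ∀ i, Submodule (ZMod p) (P i))

/-- The Selmer group of the local conditions `𝓛`. -/
def w2Sel : Submodule (ZMod p) H := ⨅ i, (𝓛 i).comap (r i)

/-- The classes which are locally trivial everywhere. -/
def w2Sha : Submodule (ZMod p) H := ⨅ i, LinearMap.ker (r i)

lemma mem_w2Sel (a : H) : a ∈ w2Sel r 𝓛 ↔ ∀ i, r i a ∈ 𝓛 i := by
  simp [w2Sel, Submodule.mem_iInf]

lemma mem_w2Sha (a : H) : a ∈ w2Sha r ↔ ∀ i, r i a = 0 := by
  simp [w2Sha, Submodule.mem_iInf]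

lemma w2Sha_le_w2Sel : w2Sha r ≤ w2Sel r 𝓛 := by
  intro a ha
  rw [mem_w2Sha] at ha
  rw [mem_w2Sel]
  intro i
  rw [ha i]
  exact (𝓛 i).zero_mem

/-- The restriction `Sel → ∏ 𝓛 i`. -/
def w2Rho : ↥(w2Sel r 𝓛) →ₗ[ZMod p] ((i : ι) → ↥(𝓛 i)) :=
  LinearMap.pi fun i =>
    ((r i).comp (w2Sel r 𝓛).subtype).codRestrict (𝓛 i) fun a => (mem_w2Sel r 𝓛 a.1).1 a.2 i

@[simp] lemma w2Rho_apply (a : ↥(w2Sel r 𝓛)) (i : ι) : ((w2Rho r 𝓛 a i : ↥(𝓛 i)) : P i) = r i a.1 :=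
  rfl

variable [Fintype ι]

/-- The pairing of a global class of `N` with the local conditions. -/
def w2Phi : H' →ₗ[ZMod p] Dual (ZMod p) ((i : ι) → ↥(𝓛 i)) :=
  ∑ i, (((𝓛 i).subtype ∘ₗ LinearMap.proj i).dualMap ∘ₗ (B i).flip ∘ₗ (r' i))

lemma w2Phi_apply (n : H') (l : (i : ι) → ↥(𝓛 i)) :
    w2Phi r' B 𝓛 n l = ∑ i, B i (l i : P i) (r' i n) := by
  simp [w2Phi, LinearMap.sum_apply]

variable {r r' B 𝓛}

theorem w2Phi_injective
    (hinj : ∀ n : H', (∀ i, ∀ l ∈ 𝓛 i, B i l (r' i n) = 0) → n = 0) :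
    Function.Injective (w2Phi r' B 𝓛) := by
  classical
  rw [← LinearMap.ker_eq_bot, LinearMap.ker_eq_bot']
  intro n hn
  refine hinj n fun i l hl => ?_
  have h1 := congrArg (fun φ => φ (Pi.single i (⟨l, hl⟩ : ↥(𝓛 i)))) hn
  simp only [LinearMap.zero_apply] at h1
  rw [w2Phi_apply] at h1
  rw [Finset.sum_eq_single i] at h1
  · simpa using h1
  · intro j _ hji
    simp [Pi.single_eq_of_ne hji]
  · intro hi
    exact absurd (Finset.mem_univ i) hi

theorem w2Phi_range_le (hrec : ∀ (a : H) (n : H'), ∑ i, B i (r i a) (r' i n) = 0) :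
    LinearMap.range (w2Phi r' B 𝓛) ≤ (LinearMap.range (w2Rho r 𝓛)).dualAnnihilator := by
  rintro _ ⟨n, rfl⟩
  rw [Submodule.mem_dualAnnihilator]
  rintro _ ⟨a, rfl⟩
  rw [w2Phi_apply]
  simpa using hrec a.1 n

omit [Fintype ι] in
lemma w2_ker_rho : LinearMap.ker (w2Rho r 𝓛) = (w2Sha r).comap (w2Sel r 𝓛).subtype := by
  ext a
  rw [LinearMap.mem_ker, Submodule.mem_comap, mem_w2Sha]
  constructor
  · intro h i
    have := congrFun h i
    exact congrArg Subtype.val this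
  · intro h
    funext i
    exact Subtype.ext (h i)

variable [Finite H] [Finite H'] [∀ i, Finite (𝓛 i)]

/-- **The counting lemma.** -/
theorem w2_count (hrec : ∀ (a : H) (n : H'), ∑ i, B i (r i a) (r' i n) = 0)
    (hinj : ∀ n : H', (∀ i, ∀ l ∈ 𝓛 i, B i l (r' i n) = 0) → n = 0) :
    Nat.card ↥(w2Sel r 𝓛) * Nat.card H' ≤ Nat.card ↥(w2Sha r) * ∏ i, Nat.card ↥(𝓛 i) := by
  classical
  have hfH : Module.Finite (ZMod p) H := Module.Finite.of_finite
  have hfH' : Module.Finite (ZMod p) H' := Module.Finite.of_finite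
  have hfL : ∀ i, Module.Finite (ZMod p) ↥(𝓛 i) := fun i => Module.Finite.of_finite
  have hfV : Module.Finite (ZMod p) ((i : ι) → ↥(𝓛 i)) := inferInstance
  -- dim H' ≤ dim V - dim range ρ
  have h1 : finrank (ZMod p) H' ≤
      finrank (ZMod p) ↥(LinearMap.range (w2Rho r 𝓛)).dualAnnihilator := by
    rw [← LinearMap.finrank_range_of_inj (w2Phi_injective hinj)]
    exact Submodule.finrank_mono (w2Phi_range_le hrec)
  have h2 := Subspace.finrank_add_finrank_dualAnnihilator_eq (LinearMap.range (w2Rho r 𝓛))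
  have h3 := LinearMap.finrank_range_add_finrank_ker (w2Rho r 𝓛)
  have h4 : finrank (ZMod p) ↥(LinearMap.ker (w2Rho r 𝓛)) = finrank (ZMod p) ↥(w2Sha r) := by
    rw [w2_ker_rho]
    exact (Submodule.comapSubtypeEquivOfLe (w2Sha_le_w2Sel r 𝓛)).finrank_eq
  have h5 : finrank (ZMod p) ↥(w2Sel r 𝓛) + finrank (ZMod p) H' ≤
      finrank (ZMod p) ↥(w2Sha r) + finrank (ZMod p) ((i : ι) → ↥(𝓛 i)) := by
    omega
  have hc : ∀ (X : Type) [AddCommGroup X] [Module (ZMod p) X] [Module.Finite (ZMod p) X],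
      Nat.card X = p ^ finrank (ZMod p) X := fun X _ _ _ => by
    rw [Module.natCard_eq_pow_finrank (K := ZMod p), Nat.card_zmod]
  rw [← Nat.card_pi, hc ↥(w2Sel r 𝓛), hc H', hc ↥(w2Sha r), hc ((i : ι) → ↥(𝓛 i)),
    ← pow_add, ← pow_add]
  exact Nat.pow_le_pow_right (Fact.out : p.Prime).pos h5

end Count

end Fermat.Agent.S56
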