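/-
S56, wall W2, leaf R (helper1), part 2: change of levels in degree 1 (inflation), its injectivity,
and the description of `unrOutside`, `resLoc`, `sha1sm` through `H¹(G_S, M)`.
-/
import Fermat.Agent.S56.Local.Walls
import Fermat.Agent.F4.PT.Defs
import Fermat.Agent.F4.BR.LevelsBridge
import Fermat.Agent.F4.DDT.Basic

set_option autoImplicit false

open CategoryTheory Module groupCohomology

namespace Fermat.Agent.S56

open Fermat.Agent.F4 ExtCitation

section LevelChange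

variable {k G : Type} [Field k] [Group G] {𝓤 𝓥 : Levels G} (h : 𝓤.sets ⊆ 𝓥.sets)
  (A : Rep.{0} k G)

include h in
lemma w2_Z1_mono_levels : Z1 𝓤 A ≤ Z1 𝓥 A := fun _ hz => ⟨hz.1, IsLC₁.mono_levels h hz.2⟩

/-- Change of levels on smooth `H¹` (inflation from `𝓤` to a finer family `𝓥`). -/
def w2H1lvl : H1sm 𝓤 A →ₗ[k] H1sm 𝓥 A :=
  Submodule.mapQ _ _ (Submodule.inclusion (w2_Z1_mono_levels h A)) fun _ hz => hz

@[simp] lemma w2H1lvl_mk (a : ↥(Z1 𝓤 A)) :
    w2H1lvl h A (H1smπ 𝓤 A a) = H1smπ 𝓥 A ⟨a.1, w2_Z1_mono_levels h A a.2⟩ := rfl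

theorem w2H1lvl_injective : Function.Injective (w2H1lvl h A) := by
  rw [← LinearMap.ker_eq_bot, LinearMap.ker_eq_bot']
  intro x hx
  obtain ⟨a, rfl⟩ := H1smπ_surjective 𝓤 A x
  rw [w2H1lvl_mk, H1smπ_eq_zero_iff] at hx
  rw [H1smπ_eq_zero_iff]
  exact hx

end LevelChange

section Global

variable {k : Type} [Field k] (S : Finset Nat.Primes) (M : Rep.{0} k GQ)

/-- Inflation `H¹(G_S, M) → H¹(G_ℚ, M)`. -/
noncomputable def w2Infl : H1sm (levelsS S) M →ₗ[k] H1sm levelsAll M :=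
  w2H1lvl (levelsS_sets_subset S) M

lemma w2Infl_mk (a : ↥(Z1 (levelsS S) M)) :
    w2Infl S M (H1smπ (levelsS S) M a)
      = H1smπ levelsAll M ⟨a.1, w2_Z1_mono_levels (levelsS_sets_subset S) M a.2⟩ := rfl

theorem w2Infl_injective : Function.Injective (w2Infl S M) :=
  w2H1lvl_injective _ _

theorem w2_range_infl : LinearMap.range (w2Infl S M) = unrOutside S M := by
  apply le_antisymm
  · rintro _ ⟨x, rfl⟩
    obtain ⟨a, rfl⟩ := H1smπ_surjective (levelsS S) M x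
    exact ⟨⟨a.1, w2_Z1_mono_levels (levelsS_sets_subset S) M a.2⟩, a.2.2, rfl⟩
  · rintro _ ⟨c, hc, rfl⟩
    exact ⟨H1smπ (levelsS S) M ⟨c.1, c.2.1, hc⟩, rfl⟩

/-- The localisation `H¹(G_S, M) → H¹(G_{ℚ_v}, M)` (full local group). -/
noncomputable def w2Loc (v : Nat.Primes) : H1sm (levelsS S) M →ₗ[k] H1loc M v :=
  resLoc M v ∘ₗ w2Infl S M

lemma w2Loc_apply (v : Nat.Primes) (x : H1sm (levelsS S) M) :
    w2Loc S M v x = resLoc M v (w2Infl S M x) := rfl

end Global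

section Sha

variable {p : ℕ} [Fact p.Prime] (S : Finset Nat.Primes) (M : Rep.{0} (ZMod p) GQ)

lemma w2Loc_eq_lvl (v : Nat.Primes) (x : H1sm (levelsS S) M) :
    w2Loc S M v x = w2H1lvl (locLevelsS_subset S v) _ (locSm1 S M v x) := by
  obtain ⟨a, rfl⟩ := H1smπ_surjective (levelsS S) M x
  rfl

theorem w2Loc_eq_zero_iff (v : Nat.Primes) (x : H1sm (levelsS S) M) :
    w2Loc S M v x = 0 ↔ locSm1 S M v x = 0 := by
  rw [w2Loc_eq_lvl]
  exact (map_eq_zero_iff _ (w2H1lvl_injective (locLevelsS_subset S v) _))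

theorem w2_mem_sha1sm_iff (x : H1sm (levelsS S) M) :
    x ∈ sha1sm S M ↔ ∀ v ∈ S, w2Loc S M v x = 0 := by
  rw [sha1sm, LinearMap.mem_ker]
  constructor
  · intro hx v hv
    rw [w2Loc_eq_zero_iff]
    exact congrFun hx ⟨v, hv⟩
  · intro hx
    funext q
    exact (w2Loc_eq_zero_iff S M q.1 x).1 (hx q.1 q.2)

end Sha

end Fermat.Agent.S56
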