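/-
S56, wall W2, leaf R (helper1), part 1: the cup product pairing
`H¹(M) × H¹(N) → k` attached to an equivariant isomorphism `θ : M ≃ Hom(N, A)` and a linear form
`inv` on `H²(A)` (generic group `G`, level structure `𝓤`), and its right-nondegeneracy from `A1Surj`.
-/
import Fermat.Agent.F4.PT.Abs.Iota
import Fermat.Agent.F4.PT.Abs.Deg0

set_option autoImplicit false

open CategoryTheory Module groupCohomology

namespace Fermat.Agent.S56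

open Fermat.Agent.F4

variable {k G : Type} [Field k] [Group G]

section Pair

variable (𝓤 : Levels G) {M N A : Rep.{0} k G} (θ : M ≃ₗ[k] (N →ₗ[k] A))
  (hθ : ∀ (g : G) (m : M) (n : N), θ (M.ρ g m) n = A.ρ g (θ m (N.ρ g⁻¹ n)))

/-- Two elements of the degree-1 term of `Hom(N, A[0])` are equal. -/
lemma w2_deg0_K1_elt_eq (b b' : (homCx N (Cx.deg0 A)).K1) : b = b' := by
  refine LinearMap.ext fun n => ?_
  exact Subsingleton.elim (α := PUnit.{1}) _ _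

include hθ in
lemma w2_toHom1_mem_ZZ1_iff (a : G → M) :
    ptToHom1 (A := A) θ a ∈ ZZ1 𝓤 (homCx N (Cx.deg0 A)) ↔ a ∈ Z1 𝓤 M := by
  rw [mem_ZZ1_iff, mem_Z1_iff]
  constructor
  · rintro ⟨h1, -, h3⟩
    refine ⟨fun g h => ?_, ?_⟩
    · have h4 := congrFun h1 (g, h)
      rw [pt_δ1_θ θ hθ] at h4
      have h5 : δ1 M a (g, h) = 0 :=
        ptθ_injective θ (h4.trans (map_zero (ptθ θ)).symm)
      rw [δ1_apply] at h5
      have h6 : M.ρ g (a h) + a g - a (g * h) = 0 := by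
        rw [← h5]; abel
      exact (sub_eq_zero.1 h6).symm
    · have := h3.comp (ptθs θ)
      have h4 : (ptθs θ ∘ (ptToHom1 (A := A) θ a).1) = a := by
        funext g
        exact ptθs_ptθ θ _
      rw [h4] at this
      exact this
  · rintro ⟨h1, h2⟩
    refine ⟨?_, pt_deg0_K1_eq _ _, h2.comp (ptθ θ)⟩
    funext q
    rw [pt_δ1_θ θ hθ]
    have : δ1 M a q = 0 := by
      rw [δ1_apply, h1 q.1 q.2]; abel
    rw [this]
    exact map_zero (ptθ θ)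

include hθ in
lemma w2_toHom1_mem_BB1 {a : G → M} (ha : a ∈ B1 M) :
    ptToHom1 (A := A) θ a ∈ BB1 (homCx N (Cx.deg0 A)) := by
  obtain ⟨m, rfl⟩ := (mem_B1_iff M a).1 ha
  refine (mem_BB1_iff _ _).2 ⟨ptθ θ m, ?_⟩
  refine Prod.ext ?_ ?_
  · funext g
    show (homCx N (Cx.deg0 A)).K0.ρ g (ptθ θ m) - ptθ θ m = ptθ θ (M.ρ g m - m)
    rw [map_sub, ptθ_equivariant θ hθ]
  · refine LinearMap.ext fun n => ?_
    exact Subsingleton.elim (α := PUnit.{1}) _ _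

/-- `a ↦ (θ ∘ a, 0)` on smooth 1-cocycles. -/
def w2ToHomZ1 : ↥(Z1 𝓤 M) →ₗ[k] ↥(ZZ1 𝓤 (homCx N (Cx.deg0 A))) where
  toFun a := ⟨ptToHom1 θ a.1, (w2_toHom1_mem_ZZ1_iff 𝓤 θ hθ a.1).2 a.2⟩
  map_add' a a' := by
    refine Subtype.ext (Prod.ext ?_ (w2_deg0_K1_elt_eq _ _))
    funext g
    exact map_add (ptθ θ) _ _
  map_smul' c a := by
    refine Subtype.ext (Prod.ext ?_ ?_)
    · funext g
      exact map_smul (ptθ θ) _ _
    · refine LinearMap.ext fun n => ?_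
      exact Subsingleton.elim (α := PUnit.{1}) _ _

@[simp] lemma w2ToHomZ1_coe (a : ↥(Z1 𝓤 M)) :
    ((w2ToHomZ1 𝓤 θ hθ a : ↥(ZZ1 𝓤 (homCx N (Cx.deg0 A)))) : T1 (homCx N (Cx.deg0 A)))
      = ptToHom1 θ a.1 := rfl

include hθ in
/-- Every smooth 1-cocycle of `Hom(N, A[0])` is `(θ ∘ a, 0)` for a smooth 1-cocycle `a` of `M`. -/
lemma w2ToHomZ1_surjective : Function.Surjective (w2ToHomZ1 (A := A) 𝓤 θ hθ) := by
  intro z
  have hz : ptToHom1 (A := A) θ (ptOfHom1 θ z.1) = z.1 :=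
    Prod.ext (ptToHom1_ptOfHom1_fst θ z.1) (by
      refine LinearMap.ext fun n => ?_
      exact Subsingleton.elim (α := PUnit.{1}) _ _)
  have ha : ptOfHom1 θ z.1 ∈ Z1 𝓤 M := by
    rw [← w2_toHom1_mem_ZZ1_iff 𝓤 θ hθ, hz]
    exact z.2
  exact ⟨⟨ptOfHom1 θ z.1, ha⟩, Subtype.ext hz⟩

variable (inv : HH2 𝓤 (Cx.deg0 A) →ₗ[k] k) (hN : IsSmooth 𝓤 N) (hfin : Module.Finite k N)

/-- The cup product pairing `H¹(M) → H¹(N)^*`, `a ↦ (n ↦ inv (θ(a) ∪ n))`. -/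
def w2Pair : H1sm 𝓤 M →ₗ[k] Dual k (H1sm 𝓤 N) :=
  Submodule.liftQ _ (ptA1Z 𝓤 (Cx.deg0 A) inv N hN hfin ∘ₗ w2ToHomZ1 𝓤 θ hθ) (by
    intro a ha
    rw [LinearMap.mem_ker, LinearMap.comp_apply]
    have h1 : (w2ToHomZ1 (A := A) 𝓤 θ hθ a : T1 (homCx N (Cx.deg0 A)))
        ∈ BB1 (homCx N (Cx.deg0 A)) := w2_toHom1_mem_BB1 θ hθ ha
    obtain ⟨x, hx⟩ := (mem_BB1_iff (homCx N (Cx.deg0 A)) _).1 h1
    refine LinearMap.ext fun c => ?_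
    obtain ⟨y, rfl⟩ := H1smπ_surjective 𝓤 N c
    rw [ptA1Z_mk, LinearMap.zero_apply]
    refine inv_eq_zero_of_mem_BB2 inv ?_
    show cup1 N (Cx.deg0 A) (w2ToHomZ1 (A := A) 𝓤 θ hθ a).1 y.1 ∈ BB2 𝓤 (Cx.deg0 A)
    rw [← hx]
    exact cup1_D0_mem_BB2 𝓤 (Cx.deg0 A) N x y.2)

lemma w2Pair_mk (a : ↥(Z1 𝓤 M)) (n : ↥(Z1 𝓤 N)) :
    w2Pair 𝓤 θ hθ inv hN hfin (H1smπ 𝓤 M a) (H1smπ 𝓤 N n)
      = inv (HH2π 𝓤 (Cx.deg0 A)
          (cupZ1 𝓤 (Cx.deg0 A) N hN hfin (w2ToHomZ1 𝓤 θ hθ a) n)) := rfl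

/-- Right-nondegeneracy of the pairing, from the surjectivity of `α¹_N`. -/
theorem w2Pair_right_nondeg (h : A1Surj 𝓤 (Cx.deg0 A) N inv hN hfin) (n : H1sm 𝓤 N)
    (hn : ∀ a : H1sm 𝓤 M, w2Pair 𝓤 θ hθ inv hN hfin a n = 0) : n = 0 := by
  refine (Module.forall_dual_apply_eq_zero_iff k n).1 fun φ => ?_
  obtain ⟨z, hz⟩ := h φ
  obtain ⟨a, rfl⟩ := w2ToHomZ1_surjective 𝓤 θ hθ z
  obtain ⟨y, rfl⟩ := H1smπ_surjective 𝓤 N n
  rw [← hz y, ← w2Pair_mk]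
  exact hn _

end Pair

end Fermat.Agent.S56
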