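/-
S56, wall W2, leaf R (helper1), part 4: the global reciprocity law for the cup product pairings
`H¹(G_{ℚ_q}, M) × H¹(G_{ℚ_q}, N) → 𝔽_p`, `N = M^*(1)`: for global classes `a`, `n` of `G_S` the sum
over `q ∈ S` of the local pairings vanishes (from `D.recip` and `g ∘ f = 0`), and the local
pairings are right-nondegenerate (local duality).
-/
import Fermat.Agent.S56.W2.R.Pair
import Fermat.Agent.S56.W2.R.Infl
import Fermat.Agent.F4.PT.Abs.Sha

set_option autoImplicit false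

open CategoryTheory Module groupCohomology

namespace Fermat.Agent.S56

open Fermat.Agent.F4 ExtCitation

variable {p : ℕ} [Fact p.Prime] {S : Finset Nat.Primes} (D : GlobalDatum p S)
  {M N : Rep.{0} (ZMod p) GQ} (θ : M ≃ₗ[ZMod p] (N →ₗ[ZMod p] Fp1 p))
  (hθ : ∀ (g : GQ) (m : M) (n : N), θ (M.ρ g m) n = (Fp1 p).ρ g (θ m (N.ρ g⁻¹ n)))
  (hN : IsSmooth (levelsS S) N) (hfin : Module.Finite (ZMod p) N)

include hN in
/-- `N` restricted to the local group at `q` is smooth for all local levels. -/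
lemma w2_smooth_locAll (q : Nat.Primes) :
    IsSmooth (locLevelsAll q) (Rep.res (primeLocalToGlobal q) N) :=
  pta_isSmooth_res (primeLocalToGlobal q) levelsAll
    (IsSmooth.pta_mono (levelsS_sets_subset S) hN)

/-- The local pairing at `q`: `H¹(G_{ℚ_q}, M) → H¹(G_{ℚ_q}, N)^*`. -/
noncomputable def w2PairLoc (q : ↥S) : H1loc M q.1 →ₗ[ZMod p] Dual (ZMod p) (H1loc N q.1) :=
  w2Pair (locLevelsAll q.1) (ptaθloc q.1 θ) (ptaθloc_equivariant θ hθ q.1) (D.loc q).invAll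
    (w2_smooth_locAll hN q.1) (pt_finite_res (primeLocalToGlobal q.1) hfin)

/-- The local pairings are right-nondegenerate. -/
theorem w2PairLoc_right_nondeg (q : ↥S) (n : H1loc N q.1)
    (hn : ∀ a : H1loc M q.1, w2PairLoc D θ hθ hN hfin q a n = 0) : n = 0 := by
  have hA : A1Surj (locLevelsAll q.1) (locMu p q.1) (Rep.res (primeLocalToGlobal q.1) N)
      (D.loc q).invAll (w2_smooth_locAll hN q.1)
      (pt_finite_res (primeLocalToGlobal q.1) hfin) :=
    (ddt_primeTo (locLevelsAll q.1) (locMu p q.1) (pta_smooth_locMu q.1) (D.loc q).invAll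
      (D.loc q).a2injAll (D.loc q).a1surjAll (Rep.res (primeLocalToGlobal q.1) N)
      (w2_smooth_locAll hN q.1) (pt_finite_res (primeLocalToGlobal q.1) hfin)).2
  exact w2Pair_right_nondeg (locLevelsAll q.1) (ptaθloc q.1 θ) (ptaθloc_equivariant θ hθ q.1)
    (D.loc q).invAll (w2_smooth_locAll hN q.1) (pt_finite_res (primeLocalToGlobal q.1) hfin)
    hA n hn

/-- The local cocycle. -/
noncomputable def w2LocZ (q : Nat.Primes) (M : Rep.{0} (ZMod p) GQ) (a : ↥(Z1 (levelsS S) M)) :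
    ↥(Z1 (locLevelsAll q) (Rep.res (primeLocalToGlobal q) M)) :=
  Z1res levelsAll M (primeLocalToGlobal q) ⟨a.1, w2_Z1_mono_levels (levelsS_sets_subset S) M a.2⟩

lemma w2Loc_mk (q : Nat.Primes) (M : Rep.{0} (ZMod p) GQ) (a : ↥(Z1 (levelsS S) M)) :
    w2Loc S M q (H1smπ (levelsS S) M a) = H1smπ _ _ (w2LocZ q M a) := rfl

lemma w2PairLoc_mk (q : ↥S) (a : ↥(Z1 (levelsS S) M)) (n : ↥(Z1 (levelsS S) N)) :
    w2PairLoc D θ hθ hN hfin q (w2Loc S M q.1 (H1smπ _ _ a)) (w2Loc S N q.1 (H1smπ _ _ n))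
      = (D.loc q).invAll (HH2π (locLevelsAll q.1) (locMu p q.1)
          (cupZ1 (locLevelsAll q.1) (locMu p q.1) (Rep.res (primeLocalToGlobal q.1) N)
            (w2_smooth_locAll hN q.1) (pt_finite_res (primeLocalToGlobal q.1) hfin)
            (w2ToHomZ1 (locLevelsAll q.1) (ptaθloc q.1 θ) (ptaθloc_equivariant θ hθ q.1)
              (w2LocZ q.1 M a)) (w2LocZ q.1 N n))) := rfl


/-- **Global reciprocity** for the local cup product pairings. -/
theorem w2_recip (a : H1sm (levelsS S) M) (n : H1sm (levelsS S) N) :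
    ∑ q : ↥S, w2PairLoc D θ hθ hN hfin q (w2Loc S M q.1 a) (w2Loc S N q.1 n) = 0 := by
  obtain ⟨a, rfl⟩ := H1smπ_surjective (levelsS S) M a
  obtain ⟨n, rfl⟩ := H1smπ_surjective (levelsS S) N n
  -- the global cup product, a 2-cocycle of `μ_p`
  obtain ⟨z₀, hz₀⟩ : ∃ z₀ : ↥(ZZ2 (levelsS S) (Cx.deg0 (Fp1 p))), z₀ =
    cupZ1 (levelsS S) (Cx.deg0 (Fp1 p)) N hN hfin (w2ToHomZ1 (levelsS S) θ hθ a) n := ⟨_, rfl⟩
  have hrec := D.recip (D.f.mapZZ2 _ z₀)
  -- the left hand side vanishes: `g ∘ f = 0`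
  have hgf0 : ∀ x, D.g.f0 (D.f.f0 x) = 0 := fun x => (D.exact.exact0 _).2 ⟨x, rfl⟩
  have hgf1 : ∀ x, D.g.f1 (D.f.f1 x) = 0 := fun x => (D.exact.exact1 _).2 ⟨x, rfl⟩
  have hL : D.g.mapZZ2 (levelsS S) (D.f.mapZZ2 (levelsS S) z₀) = 0 := by
    refine Subtype.ext (Prod.ext ?_ ?_)
    · funext x
      exact hgf0 _
    · funext x
      exact hgf1 _
  rw [hL, map_zero, map_zero] at hrec
  rw [hrec]
  refine Finset.sum_congr rfl fun q _ => ?_
  rw [w2PairLoc_mk]
  -- the local term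
  obtain ⟨zq, hzq⟩ : ∃ zq : ↥(ZZ2 (locLevelsS S q.1) (locMu p q.1)), zq =
      cupZ1 (locLevelsS S q.1) (locMu p q.1) (Rep.res (primeLocalToGlobal q.1) N)
        (pt_isSmooth_res (primeLocalToGlobal q.1) (levelsS S) hN)
        (pt_finite_res (primeLocalToGlobal q.1) hfin)
        (w2ToHomZ1 (locLevelsS S q.1) (ptaθloc q.1 θ) (ptaθloc_equivariant θ hθ q.1)
          (Z1res (levelsS S) M (primeLocalToGlobal q.1) a))
        (Z1res (levelsS S) N (primeLocalToGlobal q.1) n) := ⟨_, rfl⟩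
  have hz' : zq.1 ∈ ZZ2 (locLevelsAll q.1) (locMu p q.1) :=
    pta_ZZ2_mono (locLevelsS_subset S q.1) _ zq.2
  have h1 := (D.loc q).inv_ε zq.1 zq.2 hz'
  have h2 : (D.ev q).mapZZ2 (locLevelsS S q.1)
      ⟨resT2 (primeLocalToGlobal q.1) D.KJ (D.f.mapZZ2 (levelsS S) z₀).1,
        resT2_mem_ZZ2 _ _ D.KJ (D.f.mapZZ2 (levelsS S) z₀).2⟩
      = (D.loc q).ε.mapZZ2 (locLevelsS S q.1) zq := by
    subst hzq hz₀
    refine Subtype.ext (Prod.ext ?_ ?_)
    · funext x
      exact D.ev_f q _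
    · funext x
      have e1 : ∀ y : (Cx.deg0 (Fp1 p)).K1, D.f.f1 y = 0 := fun y => by
        rw [show y = 0 from Subsingleton.elim (α := PUnit.{1}) _ _, map_zero]
      have e2 : ∀ y : (locMu p q.1).K1, (D.loc q).ε.f1 y = 0 := fun y => by
        rw [show y = 0 from Subsingleton.elim (α := PUnit.{1}) _ _, map_zero]
      exact (congrArg (D.ev q).f1 (e1 _)).trans ((map_zero (D.ev q).f1).trans (e2 _).symm)
  rw [h2, h1]
  subst hzq
  rfl

end Fermat.Agent.S56
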